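import Fermat.Agent.MU.S56.Local.Walls
import Fermat.Agent.MU.F4.BR.LevelsBridge
import Fermat.Agent.MU.F4.Glob.Fin.Main
import Fermat.Agent.S56.W1.Kill.Dense
import Fermat.Agent.MU.F4.BR.Smooth
import Fermat.Agent.MU.F4.Dict.PlaceSurj
import Fermat.Agent.MU.S56.W1.Unr

section MergeWrap_S56_W1_Kill_Fin -- from S56/W1/Kill/Fin.lean

/-!
# S56 / W1 / Kill / Fin : the classes unramified outside `S` are finitely many

For a finite smooth `k[G_S]`-module `N` (`k` of characteristic `p`), `unrOutside S N` is a finite set: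
`killRes p hpk N` is `N` as an `𝔽_p[G_ℚ]`-module (same carrier, same cocycles, same
coboundaries), and `H¹(G_S, killRes N)` is finite (`F4Fin.finite_H1sm_levelsS`).
-/

set_option autoImplicit false

open CategoryTheory groupCohomology ExtCitation

namespace Fermat.Agent.S56

open Fermat.Agent.F4

variable {k : Type} [Field k] (p : ℕ) [Fact p.Prime] (hpk : (p : k) = 0)

omit [Fact p.Prime] in
include hpk in
lemma kill_nsmul_eq_zero (N : Rep.{0} k GQ) (x : N) : p • x = 0 := by
  rw [← Nat.cast_smul_eq_nsmul k, hpk, zero_smul]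

/-- `N` as a representation over `𝔽_p` (restriction of scalars; same carrier). -/
noncomputable def killRes (N : Rep.{0} k GQ) : Rep.{0} (ZMod p) GQ :=
  letI : Module (ZMod p) N := AddCommGroup.zmodModule (kill_nsmul_eq_zero p hpk N)
  Rep.of (k := ZMod p) (G := GQ) (X := N)
    { toFun := fun g => (N.ρ g).toAddMonoidHom.toZModLinearMap p
      map_one' := by
        refine LinearMap.ext fun x => ?_
        show N.ρ 1 x = x
        rw [map_one]
        rfl
      map_mul' := fun g h => by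
        refine LinearMap.ext fun x => ?_
        show N.ρ (g * h) x = N.ρ g (N.ρ h x)
        rw [map_mul]
        rfl }

variable (N : Rep.{0} k GQ)

lemma killRes_ρ_apply (g : GQ) (x : N) : (killRes p hpk N).ρ g x = N.ρ g x := rfl

lemma killRes_smooth (𝓤 : Levels GQ) (hN : IsSmooth 𝓤 N) : IsSmooth 𝓤 (killRes p hpk N) :=
  fun a => hN a

lemma killRes_finite [Finite N] : Module.Finite (ZMod p) (killRes p hpk N) := by
  have : Finite (killRes p hpk N) := ‹Finite N›
  exact Module.Finite.of_finite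

lemma killRes_mem_cocycles₁_iff (c : GQ → N) :
    c ∈ cocycles₁ (killRes p hpk N) ↔ c ∈ cocycles₁ N :=
  (mem_cocycles₁_iff (A := killRes p hpk N) c).trans (mem_cocycles₁_iff (A := N) c).symm

omit [Fact p.Prime] in
lemma kill_mem_B1_iff {R : Type} [CommRing R] (A : Rep.{0} R GQ) (c : GQ → A) :
    c ∈ B1 A ↔ ∃ a : A, ∀ g, c g = A.ρ g a - a := by
  constructor
  · rintro ⟨a, rfl⟩
    exact ⟨a, fun g => d₀₁_hom_apply A a g⟩
  · rintro ⟨a, ha⟩
    refine ⟨a, ?_⟩
    funext g
    rw [ha g]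
    exact d₀₁_hom_apply A a g

lemma killRes_mem_B1_iff (c : GQ → N) : c ∈ B1 (killRes p hpk N) ↔ c ∈ B1 N :=
  (kill_mem_B1_iff (killRes p hpk N) c).trans (kill_mem_B1_iff N c).symm

/-- A `levelsS S`-cocycle of `killRes N` as a cocycle of `N`. -/
noncomputable def killToAll (S : Finset Nat.Primes) (z : ↥(Z1 (levelsS S) (killRes p hpk N))) :
    ↥(Z1 levelsAll N) :=
  ⟨z.1, (killRes_mem_cocycles₁_iff p hpk N z.1).1 z.2.1, by
    obtain ⟨U, hU, h⟩ := z.2.2
    exact ⟨U, levelsS_sets_subset S hU, h⟩⟩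

include hpk in
/-- **Finiteness of `unrOutside`** for a finite smooth module. -/
theorem kill_finite_unrOutside (S : Finset Nat.Primes) [Finite N]
    (hN : IsSmooth (levelsS S) N) : (unrOutside S N : Set (H1sm levelsAll N)).Finite := by
  classical
  have hfin := Fermat.Agent.F4Fin.finite_H1sm_levelsS (p := p) S (killRes p hpk N)
    (killRes_smooth p hpk N _ hN) (killRes_finite p hpk N)
  have hfin' : Finite (H1sm (levelsS S) (killRes p hpk N)) := Module.finite_of_finite (ZMod p)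
  have hsurj := Submodule.Quotient.mk_surjective
    ((B1 (killRes p hpk N)).comap (Z1 (levelsS S) (killRes p hpk N)).subtype)
  let f : H1sm (levelsS S) (killRes p hpk N) → H1sm levelsAll N := fun x =>
    H1smπ levelsAll N (killToAll p hpk N S (Function.surjInv hsurj x))
  refine (Set.finite_range f).subset ?_
  rintro y ⟨c, hc, rfl⟩
  -- `c` as a cocycle of `killRes N`
  let c' : ↥(Z1 (levelsS S) (killRes p hpk N)) :=
    ⟨c.1, (killRes_mem_cocycles₁_iff p hpk N c.1).2 c.2.1, hc⟩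
  refine ⟨Submodule.Quotient.mk c', ?_⟩
  have h1 := Function.surjInv_eq hsurj (Submodule.Quotient.mk c')
  rw [Submodule.Quotient.eq] at h1
  show H1smπ levelsAll N (killToAll p hpk N S (Function.surjInv hsurj (Submodule.Quotient.mk c')))
    = H1smπ levelsAll N c
  show Submodule.Quotient.mk _ = Submodule.Quotient.mk _
  rw [Submodule.Quotient.eq]
  exact (killRes_mem_B1_iff p hpk N _).1 h1

end Fermat.Agent.S56
end MergeWrap_S56_W1_Kill_Fin

section MergeWrap_S56_W1_Kill_Vanish -- from S56/W1/Kill/Vanish.lean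

/-!
# S56 / W1 / Kill / Vanish : cocycles which are locally trivial at `q`

`N` a representation of `G_ℚ`, `c` a cocycle, `q` a prime, `P = primeLocalPlace q`,
`r = primeLocalToGlobal q`.

* `kill_ad0Dual_ρ_eq_one` : `ρbar σ = 1` implies that `σ` acts trivially on `ad⁰ρbar^*(1)`;
* `killSub N c` : the subgroup `{σ | σ acts trivially on N, c σ = 0}`; it is normal;
* `kill_apply_of_mem_decomposition` : if `c ∘ r` is the coboundary of `x` and `c` is constant on
  the cosets of an open subgroup acting trivially on `N`, then `c σ = σ x - x` for all `σ` in the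
  decomposition group of `P` (density of the image of `r`);
* `kill_inertia_le` : then all the inertia groups over `q` lie in `killSub N c` if they act
  trivially on `N`.
-/

set_option autoImplicit false

open CategoryTheory groupCohomology ExtCitation
open scoped Pointwise

namespace Fermat.Agent.S56

open Fermat.Agent.F4

variable {k : Type} [Field k]

/-- If `ρbar σ = 1` then `σ` acts trivially on `ad⁰ρbar^*(1)`. -/
theorem kill_ad0Dual_ρ_eq_one (ρbar : ResidualGaloisRep k) (σ : GQ) (h : ρbar.ρ σ = 1) :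
    (ad0Dual ρbar).ρ σ = 1 := by
  have hinv : ρbar.ρ σ⁻¹ = 1 := by
    have := map_mul ρbar.ρ σ⁻¹ σ
    rw [inv_mul_cancel, map_one, h, mul_one] at this
    exact this.symm
  have hdet : ((detChar ρbar σ : kˣ) : k) = 1 := by
    show LinearMap.det (ρbar.ρ σ) = 1
    rw [h, map_one]
  have had : (ad0 ρbar).ρ σ⁻¹ = 1 := by
    apply LinearMap.ext
    intro a
    apply Subtype.ext
    show ρbar.ρ σ⁻¹ * ((a : ↥(ad0Sub ρbar)).1 * ρbar.ρ σ⁻¹⁻¹) = (a : ↥(ad0Sub ρbar)).1
    rw [inv_inv, h, hinv, one_mul, mul_one]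
  apply LinearMap.ext
  intro f
  show (ad0Dual ρbar).ρ σ f = f
  have e : (ad0Dual ρbar).ρ σ f = ((detChar ρbar σ : kˣ) : k) • (f ∘ₗ (ad0 ρbar).ρ σ⁻¹) := rfl
  rw [e, hdet, one_smul, had]
  rfl

section Sub

variable (N : Rep.{0} k GQ) (c : GQ → N) (hc : c ∈ cocycles₁ N)

include hc in
lemma kill_cocycle_one : c 1 = 0 := cocycles₁_map_one (⟨c, hc⟩ : cocycles₁ N)

/-- The subgroup of the `σ` acting trivially on `N` with `c σ = 0`. -/
def killSub : Subgroup GQ where
  carrier := {σ | N.ρ σ = 1 ∧ c σ = 0}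
  one_mem' := ⟨map_one _, kill_cocycle_one N c hc⟩
  mul_mem' := by
    rintro a b ⟨ha, ha'⟩ ⟨hb, hb'⟩
    refine ⟨by rw [map_mul, ha, hb, mul_one], ?_⟩
    rw [(mem_cocycles₁_iff c).1 hc a b, hb', ha', map_zero, add_zero]
  inv_mem' := by
    rintro a ⟨ha, ha'⟩
    have hinv : N.ρ a⁻¹ = 1 := by
      have := map_mul N.ρ a⁻¹ a
      rw [inv_mul_cancel, map_one, ha, mul_one] at this
      exact this.symm
    refine ⟨hinv, ?_⟩
    have h1 := (mem_cocycles₁_iff c).1 hc a a⁻¹
    rw [mul_inv_cancel, kill_cocycle_one N c hc, ha, ha', add_zero] at h1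
    exact h1.symm

lemma mem_killSub_iff (σ : GQ) : σ ∈ killSub N c hc ↔ N.ρ σ = 1 ∧ c σ = 0 := Iff.rfl

instance killSub_normal : (killSub N c hc).Normal := by
  refine ⟨fun s hs g => ?_⟩
  obtain ⟨hs1, hs2⟩ := hs
  have hρ : N.ρ (g * s * g⁻¹) = 1 := by
    rw [map_mul, map_mul, hs1, mul_one, ← map_mul, mul_inv_cancel, map_one]
  refine ⟨hρ, ?_⟩
  have h1 := (mem_cocycles₁_iff c).1 hc (g * s * g⁻¹) g
  have e : g * s * g⁻¹ * g = g * s := by group
  rw [e, hρ, (mem_cocycles₁_iff c).1 hc g s, hs2, map_zero, zero_add] at h1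
  -- `c g = c g + c (g s g⁻¹)`
  have h2 : c (g * s * g⁻¹) + c g = c g := by
    rw [add_comm]
    exact h1.symm
  exact add_eq_right.1 h2

include hc in
/-- `c` is constant on the cosets of `killSub`. -/
lemma kill_apply_mul (g s : GQ) (hs : s ∈ killSub N c hc) : c (g * s) = c g := by
  rw [(mem_cocycles₁_iff c).1 hc g s, hs.2, map_zero, zero_add]

end Sub

section Local

variable (N : Rep.{0} k GQ) (c : GQ → N) (hc : c ∈ cocycles₁ N) (q : Nat.Primes)

include hc in
/-- If `c ∘ r` is the coboundary of `x` and `killSub N c` contains the fixing subgroup of a finite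
extension, then `c σ = σ x - x` for every `σ` in the decomposition group of `primeLocalPlace q`. -/
theorem kill_apply_of_mem_decomposition
    (F : IntermediateField ℚ (AlgebraicClosure ℚ)) [FiniteDimensional ℚ F]
    (hF : F.fixingSubgroup ≤ killSub N c hc) (x : N)
    (hx : ∀ h : primeLocalGaloisGroup q,
      c (primeLocalToGlobal q h) = N.ρ (primeLocalToGlobal q h) x - x)
    (σ : GQ) (hσ : σ ∈ (primeLocalPlace q).decompositionSubgroup ℚ) :
    c σ = N.ρ σ x - x := by
  have : Fact (q : ℕ).Prime := ⟨q.2⟩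
  obtain ⟨τ, hτ⟩ := kill_exists_local_lift (q : ℕ) σ hσ F
  have hs := hF hτ
  set r : GQ := localGaloisToGlobal (q : ℕ) τ with hr
  have e : σ = r * (r⁻¹ * σ) := by group
  have h1 : c σ = c r := by
    conv_lhs => rw [e]
    exact kill_apply_mul N c hc r _ hs
  have h2 : N.ρ σ = N.ρ r := by
    conv_lhs => rw [e]
    rw [map_mul, hs.1, mul_one]
  rw [h1, h2]
  exact hx τ

include hc in
/-- Under the hypotheses of `kill_apply_of_mem_decomposition`, the inertia groups over `q` which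
act trivially on `N` lie in `killSub N c`. -/
theorem kill_inertia_le
    (F : IntermediateField ℚ (AlgebraicClosure ℚ)) [FiniteDimensional ℚ F]
    (hF : F.fixingSubgroup ≤ killSub N c hc) (x : N)
    (hx : ∀ h : primeLocalGaloisGroup q,
      c (primeLocalToGlobal q h) = N.ρ (primeLocalToGlobal q h) x - x)
    (hN : ∀ A : ValuationSubring (AlgebraicClosure ℚ), A.LiesOverPrime (q : ℕ) →
      ∀ σ ∈ A.inertiaSubgroupIn ℚ, N.ρ σ = 1)
    (A : ValuationSubring (AlgebraicClosure ℚ)) (hA : A.LiesOverPrime (q : ℕ)) :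
    A.inertiaSubgroupIn ℚ ≤ killSub N c hc := by
  intro σ hσ
  have hP : (primeLocalPlace q).LiesOverPrime (q : ℕ) := primeLocalPlace_liesOverPrime q
  obtain ⟨g, hg⟩ := exists_smul_eq_of_liesOverPrime (primeLocalPlace q) A q.2 hP hA
  -- `σ' = g⁻¹ σ g` is in the inertia group of `P`
  have h1 : g⁻¹ * σ * g⁻¹⁻¹ ∈ (g⁻¹ • A).inertiaSubgroupIn ℚ :=
    br_conj_mem_inertiaSubgroupIn A g⁻¹ σ hσ
  rw [← hg, inv_smul_smul, inv_inv] at h1
  have hdec : g⁻¹ * σ * g ∈ (primeLocalPlace q).decompositionSubgroup ℚ := by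
    obtain ⟨j, -, hj⟩ := h1
    rw [← hj]
    exact j.2
  have hρ : N.ρ (g⁻¹ * σ * g) = 1 := hN _ hP _ h1
  have hc' : c (g⁻¹ * σ * g) = 0 := by
    rw [kill_apply_of_mem_decomposition N c hc q F hF x hx _ hdec, hρ]
    simp
  have hmem : g⁻¹ * σ * g ∈ killSub N c hc := ⟨hρ, hc'⟩
  have := (killSub_normal N c hc).conj_mem _ hmem g
  have e : g * (g⁻¹ * σ * g) * g⁻¹ = σ := by group
  rwa [e] at this

end Local

end Fermat.Agent.S56
end MergeWrap_S56_W1_Kill_Vanish

section MergeWrap_S56_W1_Kill -- from S56/W1/Kill.lean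

set_option autoImplicit false

namespace Fermat.Agent.S56

open Fermat.Agent.F4 ExtCitation

/-- The classes of `H¹(G_ℚ, ad⁰ρbar^*(1))` unramified outside `T ∋ p` form a finite-dimensional
space. -/
theorem finiteDimensional_unrOutside {k : Type} [Field k] [Finite k] (p : ℕ) [Fact p.Prime]
    (hpk : (p : k) = 0) (ρbar : ResidualGaloisRep k) (T : Finset ℕ) (hpT : p ∈ T)
    (hT : ∀ q : ℕ, q.Prime → q ∉ T → ρbar.IsUnramifiedAt q) :
    FiniteDimensional k (unrOutside (primesOf T) (ad0Dual ρbar)) := by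
  have hfinN : Module.Finite k (ad0Dual ρbar) := by
    show Module.Finite k (Module.Dual k ↥(ad0Sub ρbar))
    infer_instance
  have hfinN' : Finite (ad0Dual ρbar) := Module.finite_of_finite k
  have hsm := isSmooth_ad0Dual ρbar T hT
  have hfin := kill_finite_unrOutside p hpk (ad0Dual ρbar) (primesOf T) hsm
  have hfin' : Finite ↥(unrOutside (primesOf T) (ad0Dual ρbar)) := hfin.to_subtype
  exact Module.Finite.of_finite

/-- If `Q` kills the classes unramified outside `Smin`, then a class unramified outside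
`Smin ∪ Q` which is locally trivial at every `q ∈ Q` is zero. -/
theorem eq_zero_of_kills {k : Type} [Field k] [Finite k] (p : ℕ) [Fact p.Prime]
    (ρbar : ResidualGaloisRep k) (Smin Q : Finset ℕ) (hpSmin : p ∈ Smin)
    (hunr : ∀ q : ℕ, q.Prime → q ∉ Smin → ρbar.IsUnramifiedAt q)
    (hQ : ∀ q ∈ Q, q.Prime ∧ q ∉ Smin)
    (hkill : Kills ρbar (unrOutside (primesOf Smin) (ad0Dual ρbar)) Q)
    (n : H1sm levelsAll (ad0Dual ρbar))
    (hn : n ∈ unrOutside (primesOf Smin ∪ primesOf Q) (ad0Dual ρbar))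
    (hloc : ∀ q ∈ primesOf Q, resLoc (ad0Dual ρbar) q n = 0) : n = 0 := by
  classical
  obtain ⟨c, hcunr, rfl⟩ := hn
  -- a level of `c`, a level of `ρbar`
  obtain ⟨W, ⟨F, hFur, -, rfl⟩, hW⟩ := hcunr
  obtain ⟨L, hLfd, hL⟩ := ρbar.factorsThroughFiniteLevel
  have hFfd : FiniteDimensional ℚ F := hFur.1
  have hc : (c : GQ → ad0Dual ρbar) ∈ groupCohomology.cocycles₁ (ad0Dual ρbar) := c.2.1
  have hFL : (F ⊔ L).fixingSubgroup ≤ killSub (ad0Dual ρbar) c.1 hc := by
    intro s hs
    rw [IntermediateField.fixingSubgroup_sup] at hs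
    refine ⟨kill_ad0Dual_ρ_eq_one ρbar s (hL s fun x hx =>
      (IntermediateField.mem_fixingSubgroup_iff L s).1 hs.2 x hx), ?_⟩
    have h1 := hW 1 s hs.1
    rw [one_mul] at h1
    rw [h1]
    exact kill_cocycle_one (ad0Dual ρbar) c.1 hc
  have hFLfd : FiniteDimensional ℚ ↥(F ⊔ L) := IntermediateField.finiteDimensional_sup F L
  -- the local coboundaries
  have hx : ∀ q ∈ primesOf Q, ∃ x : ad0Dual ρbar, ∀ h : primeLocalGaloisGroup q,
      (c : GQ → ad0Dual ρbar) (primeLocalToGlobal q h) =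
        (ad0Dual ρbar).ρ (primeLocalToGlobal q h) x - x := by
    intro q hq
    have h1 := hloc q hq
    have h2 : resLoc (ad0Dual ρbar) q (H1smπ levelsAll (ad0Dual ρbar) c) =
        Submodule.Quotient.mk (Z1res levelsAll (ad0Dual ρbar) (primeLocalToGlobal q) c) := rfl
    rw [h2, Submodule.Quotient.mk_eq_zero] at h1
    obtain ⟨x, hx⟩ := h1
    refine ⟨x, fun h => ?_⟩
    have h3 := congrFun hx h
    rw [groupCohomology.d₀₁_hom_apply] at h3
    exact h3.symm
  -- the action on `N` is unramified outside `Smin`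
  have hNur : ∀ q : Nat.Primes, q ∉ primesOf Smin →
      ∀ A : ValuationSubring (AlgebraicClosure ℚ), A.LiesOverPrime (q : ℕ) →
      ∀ σ ∈ A.inertiaSubgroupIn ℚ, (ad0Dual ρbar).ρ σ = 1 := by
    intro q hq A hA σ hσ
    exact kill_ad0Dual_ρ_eq_one ρbar σ
      (hunr q q.2 (fun h => hq (mem_primesOf.2 h)) A hA σ hσ)
  -- `killSub` is a level unramified outside `Smin`
  have hH : killSub (ad0Dual ρbar) c.1 hc ∈ (levelsS (primesOf Smin)).sets := by
    refine br_smooth_mem_levelsS (primesOf Smin) _ (F ⊔ L) hFL ?_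
    intro q hq A hA
    by_cases hqQ : q ∈ primesOf Q
    · obtain ⟨x, hx⟩ := hx q hqQ
      exact kill_inertia_le (ad0Dual ρbar) c.1 hc q (F ⊔ L) hFL x hx (hNur q hq) A hA
    · intro σ hσ
      refine ⟨hNur q hq A hA σ hσ, ?_⟩
      have hσF : σ ∈ F.fixingSubgroup :=
        hFur.2 q (fun h => by
          rcases Finset.mem_union.1 h with h | h
          · exact hq h
          · exact hqQ h) A hA hσ
      have h1 := hW 1 σ hσF
      rw [one_mul] at h1
      rw [h1]
      exact kill_cocycle_one (ad0Dual ρbar) c.1 hc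
  have hΨ : H1smπ levelsAll (ad0Dual ρbar) c ∈ unrOutside (primesOf Smin) (ad0Dual ρbar) :=
    ⟨c, ⟨_, hH, fun g s hs => kill_apply_mul (ad0Dual ρbar) c.1 hc g s hs⟩, rfl⟩
  refine hkill c hΨ fun q hq => ?_
  obtain ⟨hqp, -⟩ := hQ q hq
  have hq' : (⟨q, hqp⟩ : Nat.Primes) ∈ primesOf Q := mem_primesOf.2 hq
  obtain ⟨x, hx⟩ := hx _ hq'
  have hP : (primeLocalPlace ⟨q, hqp⟩).LiesOverPrime q := primeLocalPlace_liesOverPrime ⟨q, hqp⟩
  obtain ⟨φ, hφ, -⟩ := Fermat.Agent.FrobBridge.exists_isFrobeniusAt_of_liesOver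
    (primeLocalPlace ⟨q, hqp⟩) q hqp hP
  exact ⟨primeLocalPlace ⟨q, hqp⟩, hP, φ, hφ, x,
    kill_apply_of_mem_decomposition (ad0Dual ρbar) c.1 hc ⟨q, hqp⟩ (F ⊔ L) hFL x hx φ
      hφ.mem_decompositionSubgroup⟩

end Fermat.Agent.S56
end MergeWrap_S56_W1_Kill
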